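import Mathlib
import Fermat.Agent.LT.T6.H288.IndexSpec

/-!
# Row LT, tower T6, sub-leaf T6.12g.4 (`ResFaithfulC → ResFixedC`) -- helper131, OFF-MAIN

Spec: `Fermat/Agent/LT/T6/H288/IndexSpec.lean` (helper288@01ab6bb4c, sha256 cba4b102), with
`LT/T6/H288/HypSpec.lean` and `LT/T6/Spec.lean` (byte-identical copies).  Nothing is assumed, no
placeholder proof.

Proof.  `s` preserves the valuation, so it induces an automorphism `σ` of the valuation ring
`𝒪'` of `k'` (`intAut_h131`) and an automorphism `s̄` of the residue field `F'`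
(`resAut_h131`, Mathlib's `IsLocalRing.ResidueField.mapAut`).  `s̄ ^ l = 1` and, by
`ResFaithfulC`, `s̄ ^ m ≠ 1` for `0 < m < l`: `s̄` has order `l`.  By Artin's theorem
(`FixedPoints.finrank_eq_card`) `F'` has degree `l` over the fixed field of `⟨s̄⟩`, so the fixed
field has `q` elements (`#F' = q ^ l`, `natCard_residueField_h131`).  The residues of `i(T)`,
`T` the residue system of `k`, are `q` distinct fixed elements: they are ALL the fixed elements.
-/

set_option autoImplicit false
set_option linter.style.haveILetI false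

open Fermat.Agent.LT.T6 Fermat.Agent.LT.T6.H288
open Valued

noncomputable section

namespace Fermat.Agent.LT.T6.H131

section General

variable {k' : Type} [Field k'] [Valued k' Γ₀]

/-- Membership in the maximal ideal of the valuation ring. -/
theorem mem_maxIdeal_iff_h131 (y : 𝒪[k']) :
    y ∈ IsLocalRing.maximalIdeal 𝒪[k'] ↔ Valued.v (y : k') < 1 := by
  rw [IsLocalRing.mem_maximalIdeal, mem_nonunits_iff,
    (Valuation.integer.integers (Valued.v : Valuation k' Γ₀)).isUnit_iff_valuation_eq_one]
  have hy : Valued.v (y : k') ≤ 1 := y.2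
  constructor
  · intro h
    exact lt_of_le_of_ne hy h
  · intro h
    exact ne_of_lt h

/-- Equality of residues. -/
theorem residue_eq_iff_h131 (y z : 𝒪[k']) :
    IsLocalRing.residue 𝒪[k'] y = IsLocalRing.residue 𝒪[k'] z ↔
      Valued.v ((y : k') - (z : k')) < 1 := by
  rw [← sub_eq_zero, ← map_sub, IsLocalRing.residue_eq_zero_iff, mem_maxIdeal_iff_h131]
  rfl

/-- The automorphism of the valuation ring induced by a valuation-preserving automorphism. -/
def intAut_h131 (s : k' ≃+* k') (hs : ∀ y : k', Valued.v (s y) = Valued.v y) :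
    RingAut 𝒪[k'] where
  toFun y := ⟨s y, by rw [Valuation.mem_integer_iff, hs]; exact y.2⟩
  invFun y := ⟨s.symm y, by
    rw [Valuation.mem_integer_iff, ← hs (s.symm y), RingEquiv.apply_symm_apply]; exact y.2⟩
  left_inv y := Subtype.ext (s.symm_apply_apply y)
  right_inv y := Subtype.ext (s.apply_symm_apply y)
  map_mul' a b := Subtype.ext (map_mul s (a : k') (b : k'))
  map_add' a b := Subtype.ext (map_add s (a : k') (b : k'))

theorem intAut_coe_h131 (s : k' ≃+* k') (hs : ∀ y : k', Valued.v (s y) = Valued.v y)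
    (y : 𝒪[k']) : ((intAut_h131 s hs y : 𝒪[k']) : k') = s y := rfl

theorem intAut_pow_coe_h131 (s : k' ≃+* k') (hs : ∀ y : k', Valued.v (s y) = Valued.v y)
    (m : ℕ) (y : 𝒪[k']) : (((intAut_h131 s hs ^ m) y : 𝒪[k']) : k') = (s ^ m) (y : k') := by
  induction m generalizing y with
  | zero => simp
  | succ m ih =>
    rw [pow_succ, pow_succ, RingAut.mul_apply, RingAut.mul_apply, ih, intAut_coe_h131]

/-- The induced automorphism of the residue field. -/
def resAut_h131 (s : k' ≃+* k') (hs : ∀ y : k', Valued.v (s y) = Valued.v y) :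
    RingAut 𝓀[k'] :=
  IsLocalRing.ResidueField.mapAut (intAut_h131 s hs)

theorem resAut_pow_residue_h131 (s : k' ≃+* k') (hs : ∀ y : k', Valued.v (s y) = Valued.v y)
    (m : ℕ) (y : 𝒪[k']) :
    (resAut_h131 s hs ^ m) (IsLocalRing.residue 𝒪[k'] y)
      = IsLocalRing.residue 𝒪[k'] ((intAut_h131 s hs ^ m) y) := by
  unfold resAut_h131
  rw [← map_pow]
  rfl

/-- The residues of a full residue system: a bijection onto the residue field. -/
theorem residueSystem_bijective_h131 (T : Finset k') (hT1 : ∀ x ∈ T, Valued.v x ≤ 1)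
    (hT2 : ∀ x ∈ T, ∀ y ∈ T, x ≠ y → Valued.v (x - y) = 1)
    (hT3 : ∀ z : k', Valued.v z ≤ 1 → ∃ x ∈ T, Valued.v (z - x) < 1) :
    Function.Bijective
      (fun t : T => IsLocalRing.residue 𝒪[k'] ⟨(t : k'), hT1 t t.2⟩) := by
  constructor
  · intro t t' h
    have h' := (residue_eq_iff_h131 _ _).1 h
    by_contra hne
    have hne' : (t : k') ≠ (t' : k') := fun h0 => hne (Subtype.ext h0)
    have := hT2 t t.2 t' t'.2 hne'
    simp only at h'
    rw [this] at h'
    exact lt_irrefl _ h'
  · intro y
    obtain ⟨z, rfl⟩ := IsLocalRing.residue_surjective y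
    obtain ⟨x, hx, hzx⟩ := hT3 z z.2
    refine ⟨⟨x, hx⟩, ?_⟩
    rw [residue_eq_iff_h131]
    simp only
    rw [← Valuation.map_neg, neg_sub]
    exact hzx

/-- The residue field of a local field with residue system of `q` elements has `q` elements. -/
theorem natCard_residueField_h131 {q : ℕ} (hk : IsLocalField k' q) :
    Finite 𝓀[k'] ∧ Nat.card 𝓀[k'] = q := by
  obtain ⟨T, hTq, hT1, hT2, hT3⟩ := hk.residue
  have hb := residueSystem_bijective_h131 T hT1 hT2 hT3
  refine ⟨Finite.of_surjective _ hb.2, ?_⟩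
  rw [← Nat.card_eq_of_bijective _ hb, Nat.card_eq_fintype_card, Fintype.card_coe, hTq]

end General

/-- **T6.12g.4**: residual faithfulness implies that the fixed field of `s` on the residue field
of `k'` is the residue field of `k`. -/
theorem resFixedC_of_resFaithfulC_h131 (hRF : ResFaithfulC) : ResFixedC := by
  intro k k' _ _ _ _ q l i s hk hk' hext x hx hsx
  classical
  have hl : 0 < l := hext.cyc.pos
  have hvs := hext.val_s
  have hvi : ∀ a : k, Valued.v (i a) = Valued.v a := fun a => by simpa using hext.val_i a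
  obtain ⟨hfin', hcard'⟩ := natCard_residueField_h131 hk'
  -- the residual automorphism and its order
  set sb : RingAut 𝓀[k'] := resAut_h131 s hvs with hsb
  have hpow : ∀ (m : ℕ) (y : 𝒪[k']), (sb ^ m) (IsLocalRing.residue 𝒪[k'] y)
      = IsLocalRing.residue 𝒪[k'] ((intAut_h131 s hvs ^ m) y) :=
    resAut_pow_residue_h131 s hvs
  have hord : orderOf sb = l := by
    rw [orderOf_eq_iff hl]
    constructor
    · ext y
      obtain ⟨z, rfl⟩ := IsLocalRing.residue_surjective y
      rw [hpow, RingAut.one_apply]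
      congr 1
      apply Subtype.ext
      rw [intAut_pow_coe_h131]
      exact hext.cyc.order _
    · intro m hml hm hone
      obtain ⟨z, hz1, hz2⟩ := hRF k k' q l i s hk hk' hext m hm hml
      have h1 := hpow m ⟨z, hz1⟩
      rw [hone, RingAut.one_apply] at h1
      have h2 := (residue_eq_iff_h131 _ _).1 h1.symm
      rw [intAut_pow_coe_h131] at h2
      simp only at h2
      rw [hz2] at h2
      exact lt_irrefl _ h2
  -- the cyclic group generated by `sb`
  have hGcard : Nat.card (Subgroup.zpowers sb) = l := by rw [Nat.card_zpowers, hord]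
  haveI : Finite (Subgroup.zpowers sb) := Nat.finite_of_card_ne_zero (by omega)
  letI : Fintype (Subgroup.zpowers sb) := Fintype.ofFinite _
  have hArtin := FixedPoints.finrank_eq_card (Subgroup.zpowers sb) 𝓀[k']
  rw [← Nat.card_eq_fintype_card, hGcard] at hArtin
  set Fix := FixedPoints.subfield (Subgroup.zpowers sb) 𝓀[k'] with hFix
  have hFixcard : Nat.card Fix = q := by
    have h1 : Nat.card 𝓀[k'] = Nat.card Fix ^ Module.finrank Fix 𝓀[k'] :=
      Module.natCard_eq_pow_finrank
    rw [hcard', hArtin] at h1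
    exact (Nat.pow_left_injective (by omega : l ≠ 0) h1).symm
  -- the residues of the residue system of `k`
  obtain ⟨T, hTq, hT1, hT2, hT3⟩ := hk.residue
  have hiT : ∀ t : T, Valued.v (i (t : k)) ≤ 1 := fun t => by rw [hvi]; exact hT1 t t.2
  set g : T → 𝓀[k'] := fun t => IsLocalRing.residue 𝒪[k'] ⟨i (t : k), hiT t⟩ with hg
  have hginj : Function.Injective g := by
    intro t t' h
    have h' := (residue_eq_iff_h131 _ _).1 h
    by_contra hne
    have hne' : (t : k) ≠ (t' : k) := fun h0 => hne (Subtype.ext h0)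
    have := hT2 t t.2 t' t'.2 hne'
    simp only at h'
    rw [← map_sub, hvi, this] at h'
    exact lt_irrefl _ h'
  have hmemFix : ∀ y : 𝓀[k'], sb y = y → y ∈ Fix := by
    intro y hy
    rw [hFix]
    intro m
    have hle : Subgroup.zpowers sb ≤ MulAction.stabilizer (RingAut 𝓀[k']) y := by
      rw [Subgroup.zpowers_le]
      exact MulAction.mem_stabilizer_iff.2 hy
    exact MulAction.mem_stabilizer_iff.1 (hle m.2)
  have hsub : Set.range g ⊆ (Fix : Set 𝓀[k']) := by
    rintro _ ⟨t, rfl⟩
    apply hmemFix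
    have := hpow 1 ⟨i (t : k), hiT t⟩
    rw [pow_one, pow_one] at this
    rw [hg]
    simp only
    rw [this]
    congr 1
    apply Subtype.ext
    rw [intAut_coe_h131]
    exact hext.cyc.fix_i _
  have hrange : Set.range g = (Fix : Set 𝓀[k']) := by
    refine Set.eq_of_subset_of_ncard_le hsub ?_ (Set.toFinite _)
    have h1 : (Set.range g).ncard = q := by
      rw [Set.ncard_range_of_injective hginj, Nat.card_eq_fintype_card, Fintype.card_coe, hTq]
    have h2 : (Fix : Set 𝓀[k']).ncard = q := by
      rw [← hFixcard]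
      rfl
    rw [h1, h2]
  -- the residue of `x` is fixed
  have hxfix : sb (IsLocalRing.residue 𝒪[k'] ⟨x, hx⟩) = IsLocalRing.residue 𝒪[k'] ⟨x, hx⟩ := by
    have := hpow 1 ⟨x, hx⟩
    rw [pow_one, pow_one] at this
    rw [this, residue_eq_iff_h131, intAut_coe_h131]
    exact hsx
  have hxmem : IsLocalRing.residue 𝒪[k'] ⟨x, hx⟩ ∈ Set.range g := by
    rw [hrange]
    exact hmemFix _ hxfix
  obtain ⟨t, ht⟩ := hxmem
  refine ⟨t, hT1 t t.2, ?_⟩
  have := (residue_eq_iff_h131 _ _).1 ht.symm
  exact this

end Fermat.Agent.LT.T6.H131
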