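import Mathlib
import Fermat.Agent.LT.T6.H830.HCSpec

/-
LT tower T6, leaf T6.29.R4 `EisIntRC` (registry id 1450) -- helper131, OFF-MAIN.

Spec: helper830@99e12b740 `Fermat/Agent/LT/T6/H830/HCSpec.lean`
(sha256 c3e7d846d59fc805...), which imports `LT/T6/SpecArch.lean` and
`LT/T6/Spec.lean` v3 (8c5f2ae7...).

Result: `eisIntRC_h131 : Fermat.Agent.LT.T6.H830.EisIntRC`.

Outline: the spherical average is the circle integral of the rotated function
(`SphAvgRC`); restrict the Haar measure to the compact topological support of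
the test function, swap the two integrals (continuity of the integrand on
`Icc 0 (2 pi) x tsupport f`), use left invariance of the Haar measure for each
rotation and the `K`-type equivariance of the test function.
-/

set_option autoImplicit false
set_option linter.style.haveILetI false

open scoped Matrix
open MeasureTheory

noncomputable section

namespace Fermat.Agent.LT.T6.H131

open Fermat.Agent.LT.T6 Fermat.Agent.LT.T6.H830

/-! ## Rotations -/

theorem rotR_neg_mul_rotR_h131 (θ : ℝ) : rotR (-θ) * rotR θ = 1 := by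
  apply Units.ext
  rw [Units.val_mul, coe_rotR830, coe_rotR830, Units.val_one]
  ext i j
  have h := Real.cos_sq_add_sin_sq θ
  fin_cases i <;> fin_cases j <;>
    simp [Matrix.mul_apply, Fin.sum_univ_two, Real.cos_neg, Real.sin_neg] <;> nlinarith

theorem inSO2_rotR_h131 (θ : ℝ) : InSO2 (rotR θ) := by
  constructor
  · rw [coe_rotR830]
    ext i j
    have h := Real.cos_sq_add_sin_sq θ
    fin_cases i <;> fin_cases j <;>
      simp [Matrix.mul_apply, Fin.sum_univ_two, Matrix.transpose_apply] <;> nlinarith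
  · rw [coe_rotR830, Matrix.det_fin_two_of]
    have h := Real.cos_sq_add_sin_sq θ
    nlinarith

theorem holPart_rotR_h131 (θ : ℝ) : holPart (rotR θ) = Complex.exp ((θ : ℂ) * Complex.I) := by
  unfold holPart
  rw [coe_rotR830, Complex.exp_mul_I]
  simp only [Matrix.of_apply, Matrix.cons_val', Matrix.cons_val_zero, Matrix.cons_val_one,
    Matrix.cons_val_fin_one]
  push_cast
  ring

theorem wtChar_rotR_h131 (n : ℤ) (θ : ℝ) :
    wtChar n (rotR θ) = Complex.exp ((n : ℂ) * ((θ : ℂ) * Complex.I)) := by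
  unfold wtChar
  rw [holPart_rotR_h131, Complex.exp_int_mul]

theorem continuous_rotR_h131 : Continuous rotR := by
  rw [Units.continuous_iff]
  constructor
  · have : (Units.val ∘ rotR) = fun θ : ℝ =>
        (!![Real.cos θ, -Real.sin θ; Real.sin θ, Real.cos θ] : Matrix (Fin 2) (Fin 2) ℝ) := by
      funext θ
      rfl
    rw [this]
    refine continuous_matrix fun i j => ?_
    fin_cases i <;> fin_cases j <;> simp <;> fun_prop
  · have : (fun θ : ℝ => (((rotR θ)⁻¹ : GL (Fin 2) ℝ) : Matrix (Fin 2) (Fin 2) ℝ))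
        = fun θ : ℝ =>
          (!![Real.cos θ, Real.sin θ; -Real.sin θ, Real.cos θ] : Matrix (Fin 2) (Fin 2) ℝ) := by
      funext θ
      have h1 : (rotR θ)⁻¹ = rotR (-θ) := inv_eq_of_mul_eq_one_left (rotR_neg_mul_rotR_h131 θ)
      rw [h1, coe_rotR830, Real.cos_neg, Real.sin_neg, neg_neg]
    rw [this]
    refine continuous_matrix fun i j => ?_
    fin_cases i <;> fin_cases j <;> simp <;> fun_prop

/-! ## Continuity of `eisR` on `det > 0` -/

theorem row_sq_pos_h131 (g : GL (Fin 2) ℝ) :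
    0 < (g : Matrix (Fin 2) (Fin 2) ℝ) 1 0 ^ 2 + (g : Matrix (Fin 2) (Fin 2) ℝ) 1 1 ^ 2 := by
  have hdet : (g : Matrix (Fin 2) (Fin 2) ℝ).det ≠ 0 := by
    have := Matrix.GeneralLinearGroup.det_ne_zero g
    exact this
  rw [Matrix.det_fin_two] at hdet
  by_contra h
  have h0 : (g : Matrix (Fin 2) (Fin 2) ℝ) 1 0 ^ 2 + (g : Matrix (Fin 2) (Fin 2) ℝ) 1 1 ^ 2 = 0 :=
    le_antisymm (not_lt.1 h) (by positivity)
  have hc : (g : Matrix (Fin 2) (Fin 2) ℝ) 1 0 = 0 := by nlinarith [sq_nonneg ((g : Matrix (Fin 2) (Fin 2) ℝ) 1 0), sq_nonneg ((g : Matrix (Fin 2) (Fin 2) ℝ) 1 1)]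
  have hd : (g : Matrix (Fin 2) (Fin 2) ℝ) 1 1 = 0 := by nlinarith [sq_nonneg ((g : Matrix (Fin 2) (Fin 2) ℝ) 1 0), sq_nonneg ((g : Matrix (Fin 2) (Fin 2) ℝ) 1 1)]
  apply hdet
  rw [hc, hd]
  ring

theorem continuous_entry_h131 (i j : Fin 2) :
    Continuous fun g : GL (Fin 2) ℝ => (g : Matrix (Fin 2) (Fin 2) ℝ) i j :=
  Continuous.matrix_elem Units.continuous_val i j

theorem continuous_det_h131 :
    Continuous fun g : GL (Fin 2) ℝ => (g : Matrix (Fin 2) (Fin 2) ℝ).det :=
  Continuous.matrix_det Units.continuous_val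

theorem continuousAt_eisR_h131 (n : ℤ) (s : ℂ) (g : GL (Fin 2) ℝ)
    (hg : 0 < (g : Matrix (Fin 2) (Fin 2) ℝ).det) : ContinuousAt (eisR n s) g := by
  have hrow := row_sq_pos_h131 g
  have hc := continuous_entry_h131 1 0
  have hd := continuous_entry_h131 1 1
  have hrc : Continuous fun g : GL (Fin 2) ℝ =>
      (g : Matrix (Fin 2) (Fin 2) ℝ) 1 0 ^ 2 + (g : Matrix (Fin 2) (Fin 2) ℝ) 1 1 ^ 2 :=
    (hc.pow 2).add (hd.pow 2)
  unfold eisR
  refine ContinuousAt.mul ?_ ?_
  · have h1 : ContinuousAt (fun g : GL (Fin 2) ℝ => (g : Matrix (Fin 2) (Fin 2) ℝ).det /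
        ((g : Matrix (Fin 2) (Fin 2) ℝ) 1 0 ^ 2 + (g : Matrix (Fin 2) (Fin 2) ℝ) 1 1 ^ 2)) g :=
      continuous_det_h131.continuousAt.div hrc.continuousAt hrow.ne'
    have h2 := Complex.continuousAt_ofReal_cpow_const
      ((g : Matrix (Fin 2) (Fin 2) ℝ).det /
        ((g : Matrix (Fin 2) (Fin 2) ℝ) 1 0 ^ 2 + (g : Matrix (Fin 2) (Fin 2) ℝ) 1 1 ^ 2))
      (s + 1 / 2) (Or.inr (div_pos hg hrow).ne')
    exact ContinuousAt.comp (g := fun a : ℝ => (a : ℂ) ^ (s + 1 / 2)) h2 h1
  · refine ContinuousAt.zpow₀ ?_ n (Or.inl ?_)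
    · refine ContinuousAt.div ?_ ?_ ?_
      · exact ((Complex.continuous_ofReal.comp hd).add
          ((Complex.continuous_ofReal.comp hc).mul continuous_const)).continuousAt
      · exact (Complex.continuous_ofReal.comp (Real.continuous_sqrt.comp hrc)).continuousAt
      · rw [Ne, Complex.ofReal_eq_zero]
        exact (Real.sqrt_pos.2 hrow).ne'
    · rw [Ne, div_eq_zero_iff, not_or]
      constructor
      · intro h
        have hre := congrArg Complex.re h
        have him := congrArg Complex.im h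
        simp at hre him
        rw [hre, him] at hrow
        simp at hrow
      · rw [Complex.ofReal_eq_zero]
        exact (Real.sqrt_pos.2 hrow).ne'

theorem det_rotR_mul_h131 (θ : ℝ) (y : GL (Fin 2) ℝ) :
    ((rotR θ * y : GL (Fin 2) ℝ) : Matrix (Fin 2) (Fin 2) ℝ).det
      = (y : Matrix (Fin 2) (Fin 2) ℝ).det := by
  rw [Units.val_mul, Matrix.det_mul, (inSO2_rotR_h131 θ).2, one_mul]

/-- The integrand `(θ, y) ↦ f y * E (k_θ y)` is continuous. -/
theorem continuous_integrand_h131 (n : ℤ) (s : ℂ) {f : GL (Fin 2) ℝ → ℂ}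
    (hf : IsArchTestR n f) :
    Continuous fun p : ℝ × GL (Fin 2) ℝ => f p.2 * eisR n s (rotR p.1 * p.2) := by
  rw [continuous_iff_continuousAt]
  rintro ⟨θ₀, y₀⟩
  have hm : Continuous fun p : ℝ × GL (Fin 2) ℝ => rotR p.1 * p.2 :=
    (continuous_rotR_h131.comp continuous_fst).mul continuous_snd
  have hdetc : Continuous fun p : ℝ × GL (Fin 2) ℝ => (p.2 : Matrix (Fin 2) (Fin 2) ℝ).det :=
    continuous_det_h131.comp continuous_snd
  have hne : (y₀ : Matrix (Fin 2) (Fin 2) ℝ).det ≠ 0 := Matrix.GeneralLinearGroup.det_ne_zero y₀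
  rcases lt_or_gt_of_ne hne with hneg | hpos
  · -- `f` vanishes near `y₀`
    have hnhds : ∀ᶠ p : ℝ × GL (Fin 2) ℝ in nhds (θ₀, y₀),
        (p.2 : Matrix (Fin 2) (Fin 2) ℝ).det < 0 :=
      hdetc.continuousAt.eventually (gt_mem_nhds hneg)
    have hev : (fun p : ℝ × GL (Fin 2) ℝ => f p.2 * eisR n s (rotR p.1 * p.2))
        =ᶠ[nhds (θ₀, y₀)] fun _ => 0 := by
      filter_upwards [hnhds] with p hp
      have : f p.2 = 0 := by
        by_contra h
        exact absurd (hf.pos p.2 h) (not_lt.2 (le_of_lt hp))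
      rw [this, zero_mul]
    exact continuousAt_const.congr hev.symm
  · refine ContinuousAt.mul (hf.cont.comp continuous_snd).continuousAt ?_
    have hE : ContinuousAt (eisR n s) (rotR θ₀ * y₀) :=
      continuousAt_eisR_h131 n s _ (by rw [det_rotR_mul_h131]; exact hpos)
    have hcomp : ContinuousAt ((eisR n s) ∘ (fun p : ℝ × GL (Fin 2) ℝ => rotR p.1 * p.2))
        (θ₀, y₀) :=
      ContinuousAt.comp (x := (θ₀, y₀)) (g := eisR n s)
        (f := fun p : ℝ × GL (Fin 2) ℝ => rotR p.1 * p.2) hE hm.continuousAt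
    exact hcomp

local instance borelGLR_h131 : MeasurableSpace (GL (Fin 2) ℝ) := borel _

local instance borelSpaceGLR_h131 : BorelSpace (GL (Fin 2) ℝ) := ⟨rfl⟩

/-- Left invariance: `∫ f(y) E(k_θ y) dμ = e^{inθ} ∫ f E dμ`. -/
theorem integral_rot_h131 (μ : Measure (GL (Fin 2) ℝ)) [μ.IsHaarMeasure] (n : ℤ) (s : ℂ)
    {f : GL (Fin 2) ℝ → ℂ} (hf : IsArchTestR n f) (θ : ℝ) :
    ∫ y, f y * eisR n s (rotR θ * y) ∂μ
      = Complex.exp ((n : ℂ) * ((θ : ℂ) * Complex.I)) * ∫ y, f y * eisR n s y ∂μ := by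
  have h1 := integral_mul_left_eq_self (μ := μ)
    (fun y : GL (Fin 2) ℝ => f (rotR (-θ) * y) * eisR n s y) (rotR θ)
  have h2 : ∀ y : GL (Fin 2) ℝ, f (rotR (-θ) * (rotR θ * y)) = f y := by
    intro y
    rw [← mul_assoc, rotR_neg_mul_rotR_h131, one_mul]
  simp only [h2] at h1
  rw [h1, ← integral_const_mul]
  congr 1
  funext y
  rw [hf.left (rotR (-θ)) y (inSO2_rotR_h131 _), wtChar_rotR_h131, ← Complex.exp_neg]
  rw [mul_assoc]
  congr 2
  push_cast
  ring

/-- **T6.29.R4 EIS-INT** (`H830.EisIntRC`). -/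
theorem eisIntRC_h131 : EisIntRC := by
  intro hSph μ hμ n hn f hf s
  haveI := hμ
  unfold sphTransR
  set c₀ : ℂ := ((1 / (2 * Real.pi) : ℝ) : ℂ) with hc₀
  set F₀ : ℝ × GL (Fin 2) ℝ → ℂ := fun p => f p.2 * eisR n s (rotR p.1 * p.2) with hF₀
  have hF₀c : Continuous F₀ := continuous_integrand_h131 n s hf
  set G : ℝ → GL (Fin 2) ℝ → ℂ := fun θ y =>
    c₀ * (Complex.exp (-((n : ℂ) * (θ : ℂ) * Complex.I)) * F₀ (θ, y)) with hG
  have hπ : (0 : ℝ) ≤ 2 * Real.pi := by positivity
  have hTc : IsCompact (tsupport f) := hf.supp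
  have hzero : ∀ y, y ∉ tsupport f → ∀ θ, G θ y = 0 := by
    intro y hy θ
    have : f y = 0 := image_eq_zero_of_notMem_tsupport hy
    simp [hG, hF₀, this]
  -- Step 1: the spherical function as an average
  have h1 : ∀ y, f y * sphFn n s y = ∫ θ in (0 : ℝ)..(2 * Real.pi), G θ y := by
    intro y
    by_cases hy : f y = 0
    · have : ∀ θ, G θ y = 0 := fun θ => by simp [hG, hF₀, hy]
      simp [this, hy]
    · have hs := hSph n hn s y (hf.pos y hy)
      have e1 : ∀ θ, G θ y = (f y * c₀) *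
          (Complex.exp (-((n : ℂ) * (θ : ℂ) * Complex.I)) * eisR n s (rotR θ * y)) := by
        intro θ
        simp only [hG, hF₀]
        ring
      simp_rw [e1]
      rw [intervalIntegral.integral_const_mul, ← hs, mul_assoc]
  -- Step 2: Fubini
  haveI : IsFiniteMeasure (μ.restrict (tsupport f)) :=
    ⟨by rw [Measure.restrict_apply_univ]; exact hTc.measure_lt_top⟩
  have hint : Integrable (Function.uncurry fun (y : GL (Fin 2) ℝ) (θ : ℝ) => G θ y)
      ((μ.restrict (tsupport f)).prod (volume.restrict (Set.Ioc (0 : ℝ) (2 * Real.pi)))) := by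
    have hcont : Continuous (Function.uncurry fun (y : GL (Fin 2) ℝ) (θ : ℝ) => G θ y) := by
      have : (Function.uncurry fun (y : GL (Fin 2) ℝ) (θ : ℝ) => G θ y)
          = fun p : GL (Fin 2) ℝ × ℝ =>
            c₀ * (Complex.exp (-((n : ℂ) * (p.2 : ℂ) * Complex.I)) * F₀ (p.2, p.1)) := by
        funext p
        rfl
      rw [this]
      refine continuous_const.mul (Continuous.mul ?_ ?_)
      · fun_prop
      · exact hF₀c.comp (continuous_snd.prodMk continuous_fst)
    obtain ⟨C, hC⟩ := ((isCompact_Icc (a := (0 : ℝ)) (b := 2 * Real.pi)).prod hTc).exists_bound_of_continuousOn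
      hF₀c.continuousOn
    have hbound : ∀ p : GL (Fin 2) ℝ × ℝ, p ∈ (Set.univ : Set (GL (Fin 2) ℝ)) ×ˢ
        Set.Ioc (0 : ℝ) (2 * Real.pi) →
        ‖(Function.uncurry fun (y : GL (Fin 2) ℝ) (θ : ℝ) => G θ y) p‖ ≤ ‖c₀‖ * (max C 0) := by
      rintro ⟨y, θ⟩ ⟨-, hθ⟩
      simp only [Function.uncurry_apply_pair, hG]
      rw [norm_mul, norm_mul]
      have he : ‖Complex.exp (-((n : ℂ) * (θ : ℂ) * Complex.I))‖ = 1 := by
        have : -((n : ℂ) * (θ : ℂ) * Complex.I) = ((-(n * θ) : ℝ) : ℂ) * Complex.I := by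
          push_cast
          ring
        rw [this, Complex.norm_exp_ofReal_mul_I]
      rw [he, one_mul]
      refine mul_le_mul_of_nonneg_left ?_ (norm_nonneg _)
      by_cases hy : y ∈ tsupport f
      · exact (hC (θ, y) ⟨⟨hθ.1.le, hθ.2⟩, hy⟩).trans (le_max_left _ _)
      · have : f y = 0 := image_eq_zero_of_notMem_tsupport hy
        simp only [hF₀, this, zero_mul, norm_zero]
        exact le_max_right _ _
    have hrho : (μ.restrict (tsupport f)).prod (volume.restrict (Set.Ioc (0 : ℝ) (2 * Real.pi)))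
        = ((μ.restrict (tsupport f)).prod volume).restrict
          ((Set.univ : Set (GL (Fin 2) ℝ)) ×ˢ Set.Ioc (0 : ℝ) (2 * Real.pi)) := by
      rw [← Measure.prod_restrict, Measure.restrict_univ]
    haveI : IsFiniteMeasure ((μ.restrict (tsupport f)).prod
        (volume.restrict (Set.Ioc (0 : ℝ) (2 * Real.pi)))) := inferInstance
    refine Integrable.of_bound hcont.aestronglyMeasurable (‖c₀‖ * (max C 0)) ?_
    rw [hrho]
    exact ae_restrict_of_forall_mem (MeasurableSet.univ.prod measurableSet_Ioc) hbound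
  have hswap := integral_integral_swap hint
  -- Step 3: the inner integrals
  have h3 : ∀ θ : ℝ, ∫ y in tsupport f, G θ y ∂μ
      = c₀ * ∫ y, f y * eisR n s y ∂μ := by
    intro θ
    rw [setIntegral_eq_integral_of_forall_compl_eq_zero (fun y hy => hzero y hy θ)]
    simp only [hG, hF₀]
    rw [integral_const_mul, integral_const_mul, integral_rot_h131 μ n s hf θ, ← mul_assoc
      (Complex.exp _), ← Complex.exp_add]
    have : -((n : ℂ) * (θ : ℂ) * Complex.I) + (n : ℂ) * ((θ : ℂ) * Complex.I) = 0 := by ring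
    rw [this, Complex.exp_zero, one_mul]
  -- assembly
  calc ∫ y, f y * sphFn n s y ∂μ
      = ∫ y, (∫ θ in (0 : ℝ)..(2 * Real.pi), G θ y) ∂μ := by
        congr 1
        funext y
        exact h1 y
    _ = ∫ y in tsupport f, (∫ θ in (0 : ℝ)..(2 * Real.pi), G θ y) ∂μ := by
        rw [setIntegral_eq_integral_of_forall_compl_eq_zero]
        intro y hy
        simp [hzero y hy]
    _ = ∫ y in tsupport f, (∫ θ in Set.Ioc (0 : ℝ) (2 * Real.pi), G θ y) ∂μ := by
        congr 1
        funext y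
        exact intervalIntegral.integral_of_le hπ
    _ = ∫ θ in Set.Ioc (0 : ℝ) (2 * Real.pi), (∫ y in tsupport f, G θ y ∂μ) := hswap
    _ = ∫ θ in Set.Ioc (0 : ℝ) (2 * Real.pi), (c₀ * ∫ y, f y * eisR n s y ∂μ) := by
        congr 1
        funext θ
        exact h3 θ
    _ = ∫ y, f y * eisR n s y ∂μ := by
        rw [← intervalIntegral.integral_of_le hπ, intervalIntegral.integral_const, sub_zero,
          hc₀]
        have hpi : (2 * Real.pi : ℝ) ≠ 0 := by positivity
        rw [Complex.real_smul, ← mul_assoc, ← Complex.ofReal_mul]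
        rw [show (2 * Real.pi) * (1 / (2 * Real.pi)) = 1 by field_simp]
        simp

end Fermat.Agent.LT.T6.H131
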